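/-
Program C (S55), package C3 (local fields in the `PadicAlgCl q` model), leaf L2a `LeafUnram`
(helper28): for an embedded local field `F ⊆ Ω = PadicAlgCl q` with residue cardinality `Q`,
the field `unramExt q F n = F(μ_{Q^n - 1})` is unramified, Galois, cyclic, of degree `n`.

Proof without Hensel's lemma and without the residue field of the extension.  Let `m = Q^n - 1`,
`ζ` a primitive `m`-th root of unity, `g = minpoly F ζ`, `k` the residue field of `Ω` and
`z ∈ k` the reduction of `ζ`.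
* Distinct `m`-th roots of unity are incongruent modulo the maximal ideal (`|m| = 1`).
* `x ↦ x ^ Q` is a ring endomorphism of `k` whose fixed points are exactly the reductions of the
  integers of `F` (root count of `X ^ Q - X`).
* `g` has integral coefficients, so `ḡ(z ^ Q) = ḡ(z) ^ Q = 0`; as `g` is a product of
  `X - ρ` over roots of unity `ρ`, this forces `g(ζ ^ Q) = 0`: all `ζ ^ (Q ^ i)` are conjugates.
* `∏_{i < n} (X - z ^ (Q ^ i))` is Frobenius-invariant, hence lifts to an integral polynomial `P`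
  over `F` with `|P(ζ)| < 1`; conjugation being an isometry, `|P(ρ)| < 1` for every conjugate
  `ρ`, which forces `ρ = ζ ^ (Q ^ i)` for some `i < n`.  So `deg g = n`.
* The Galois group contains `ζ ↦ ζ ^ Q` of order `n`, so it is cyclic.
* No new norms: Vandermonde argument on the conjugates of `ζ` (as in helper53's Kummer leaf).
-/
import Mathlib
import Fermat.Agent.S55.H66.LocalBridge
import Fermat.Agent.S55.H53.KummerUnram

set_option autoImplicit false

noncomputable section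

namespace Fermat.Agent.S55.H28

open IntermediateField Polynomial

/-! ### Roots of unity in ultrametric fields -/

theorem norm_eq_one_of_pow_eq_one {K : Type*} [NormedField K] {m : ℕ} (hm : m ≠ 0) {x : K}
    (hx : x ^ m = 1) : ‖x‖ = 1 := by
  have h : ‖x‖ ^ m = 1 := by rw [← norm_pow, hx, norm_one]
  exact (pow_eq_one_iff_of_nonneg (norm_nonneg _) hm).1 h

/-- Distinct `m`-th roots of unity in an ultrametric field in which `m` is a unit are not
congruent modulo the maximal ideal. -/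
theorem norm_sub_eq_one_of_pow_eq_one {K : Type*} [NormedField K] [IsUltrametricDist K] {m : ℕ}
    (hm : ‖(m : K)‖ = 1) {x y : K} (hx : x ^ m = 1) (hy : y ^ m = 1) (hxy : x ≠ y) :
    ‖x - y‖ = 1 := by
  have hm0 : m ≠ 0 := by
    rintro rfl
    simp at hm
  have hxn := norm_eq_one_of_pow_eq_one hm0 hx
  have hyn := norm_eq_one_of_pow_eq_one hm0 hy
  have hy0 : y ≠ 0 := by
    rintro rfl
    simp at hyn
  have hξ : (x / y) ^ m = 1 := by rw [div_pow, hx, hy, div_one]
  have hξ1 : x / y ≠ 1 := fun h => hxy ((div_eq_one_iff_eq hy0).1 h)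
  have hξn : ‖x / y‖ = 1 := norm_eq_one_of_pow_eq_one hm0 hξ
  have hle : ‖x / y - 1‖ ≤ 1 := by
    calc ‖x / y - 1‖ = ‖x / y + -1‖ := by rw [sub_eq_add_neg]
      _ ≤ max ‖x / y‖ ‖(-1 : K)‖ := IsUltrametricDist.norm_add_le_max _ _
      _ = 1 := by rw [hξn, norm_neg, norm_one, max_self]
  have hge : ¬ ‖x / y - 1‖ < 1 := by
    intro hlt
    have hsum : ∑ j ∈ Finset.range m, (x / y) ^ j = 0 := by
      have h := geom_sum_mul (x / y) m
      rw [hξ, sub_self] at h
      exact (mul_eq_zero.1 h).resolve_right (sub_ne_zero.2 hξ1)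
    have hm' : (m : K) = ∑ j ∈ Finset.range m, (1 - (x / y) ^ j) := by
      rw [Finset.sum_sub_distrib, hsum]
      simp
    have h3 : ‖(m : K)‖ ≤ ‖x / y - 1‖ := by
      rw [hm']
      refine IsUltrametricDist.norm_sum_le_of_forall_le_of_nonneg (norm_nonneg _) fun j _ => ?_
      have h1 : 1 - (x / y) ^ j = -((∑ i ∈ Finset.range j, (x / y) ^ i) * (x / y - 1)) := by
        rw [geom_sum_mul]
        ring
      rw [h1, norm_neg, norm_mul]
      have h2 : ‖∑ i ∈ Finset.range j, (x / y) ^ i‖ ≤ 1 :=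
        IsUltrametricDist.norm_sum_le_of_forall_le_of_nonneg zero_le_one fun i _ => by
          rw [norm_pow, hξn, one_pow]
      exact mul_le_of_le_one_left (norm_nonneg _) h2
    linarith
  have h1 : ‖x / y - 1‖ = 1 := le_antisymm hle (not_lt.1 hge)
  have h2 : x - y = y * (x / y - 1) := by
    field_simp
  rw [h2, norm_mul, hyn, h1, one_mul]

/-! ### The valuation ring of `Ω` and its residue field -/

variable (q : ℕ) [Fact q.Prime]

/-- The valuation ring of `Ω`. -/
def OΩ : ValuationSubring (PadicAlgCl q) :=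
  (Valued.v : Valuation (PadicAlgCl q) NNReal).valuationSubring

theorem mem_OΩ {x : PadicAlgCl q} : x ∈ OΩ q ↔ ‖x‖ ≤ 1 := by
  show ‖x‖₊ ≤ 1 ↔ ‖x‖ ≤ 1
  rw [← NNReal.coe_le_coe]
  rfl

/-- The residue field of `Ω`. -/
abbrev kΩ : Type := IsLocalRing.ResidueField (OΩ q)

/-- Reduction modulo the maximal ideal of `Ω`. -/
def red : OΩ q →+* kΩ q := IsLocalRing.residue (OΩ q)

theorem isUnit_OΩ_iff (x : OΩ q) : IsUnit x ↔ ‖(x : PadicAlgCl q)‖ = 1 := by
  constructor
  · rintro ⟨u, rfl⟩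
    have h1 : ‖((u : OΩ q) : PadicAlgCl q)‖ ≤ 1 := (mem_OΩ q).1 (u : OΩ q).2
    have h2 : ‖(((u⁻¹ : (OΩ q)ˣ) : OΩ q) : PadicAlgCl q)‖ ≤ 1 :=
      (mem_OΩ q).1 ((u⁻¹ : (OΩ q)ˣ) : OΩ q).2
    have h3 : ((u : OΩ q) : PadicAlgCl q) * (((u⁻¹ : (OΩ q)ˣ) : OΩ q) : PadicAlgCl q) = 1 := by
      exact congrArg (fun z : OΩ q => (z : PadicAlgCl q)) u.mul_inv
    have h4 := congrArg norm h3
    rw [norm_mul, norm_one] at h4
    nlinarith [norm_nonneg ((u : OΩ q) : PadicAlgCl q),
      norm_nonneg ((((u⁻¹ : (OΩ q)ˣ) : OΩ q)) : PadicAlgCl q)]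
  · intro h
    have hx0 : (x : PadicAlgCl q) ≠ 0 := by
      intro h0
      rw [h0, norm_zero] at h
      exact zero_ne_one h
    have hinv : (x : PadicAlgCl q)⁻¹ ∈ OΩ q := by
      rw [mem_OΩ, norm_inv, h, inv_one]
    refine IsUnit.of_mul_eq_one ⟨(x : PadicAlgCl q)⁻¹, hinv⟩ ?_
    apply Subtype.ext
    show (x : PadicAlgCl q) * (x : PadicAlgCl q)⁻¹ = 1
    exact mul_inv_cancel₀ hx0

theorem red_eq_zero_iff (x : OΩ q) : red q x = 0 ↔ ‖(x : PadicAlgCl q)‖ < 1 := by
  have hle : ‖(x : PadicAlgCl q)‖ ≤ 1 := (mem_OΩ q).1 x.2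
  rw [red, IsLocalRing.residue_eq_zero_iff, IsLocalRing.mem_maximalIdeal, mem_nonunits_iff,
    isUnit_OΩ_iff]
  exact ⟨fun h => lt_of_le_of_ne hle h, fun h => ne_of_lt h⟩

theorem red_eq_iff (x y : OΩ q) : red q x = red q y ↔ ‖(x : PadicAlgCl q) - y‖ < 1 := by
  rw [← sub_eq_zero, ← map_sub, red_eq_zero_iff]
  rfl

theorem norm_natCast_prime_lt_one : ‖((q : ℕ) : PadicAlgCl q)‖ < 1 := by
  have h : ((q : ℕ) : PadicAlgCl q) = algebraMap ℚ_[q] (PadicAlgCl q) ((q : ℕ) : ℚ_[q]) := by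
    simp
  rw [h, PadicAlgCl.norm_extends q]
  exact Padic.norm_p_lt_one

instance charP_kΩ : CharP (kΩ q) q := by
  rw [CharP.charP_iff_prime_eq_zero (Fact.out : q.Prime)]
  have h : ((q : ℕ) : kΩ q) = red q ((q : ℕ) : OΩ q) := by simp
  rw [h, red_eq_zero_iff]
  exact norm_natCast_prime_lt_one q


/-! ### Embedded local fields: reduction of integers -/

section Field

variable (F : Type) [Field F] [Algebra F (PadicAlgCl q)]

/-- The inclusion of valuation rings. -/
def incl : H66.intRing q F →+* OΩ q where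
  toFun x := ⟨algebraMap F (PadicAlgCl q) x, x.2⟩
  map_one' := Subtype.ext (map_one _)
  map_mul' _ _ := Subtype.ext (map_mul _ _ _)
  map_zero' := Subtype.ext (map_zero _)
  map_add' _ _ := Subtype.ext (map_add _ _ _)

theorem coe_incl (x : H66.intRing q F) :
    ((incl q F x : OΩ q) : PadicAlgCl q) = algebraMap F (PadicAlgCl q) x := rfl

/-- Reduction of integers of `F` into the residue field of `Ω`. -/
def redF : H66.intRing q F →+* kΩ q := (red q).comp (incl q F)

theorem redF_apply (x : H66.intRing q F) : redF q F x = red q (incl q F x) := rfl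

theorem mem_intRing {x : F} : x ∈ H66.intRing q F ↔ ‖algebraMap F (PadicAlgCl q) x‖ ≤ 1 := by
  show ‖algebraMap F (PadicAlgCl q) x‖₊ ≤ 1 ↔ ‖algebraMap F (PadicAlgCl q) x‖ ≤ 1
  rw [← NNReal.coe_le_coe]
  rfl

theorem isUnit_intRing_of_norm (x : H66.intRing q F)
    (h : ‖algebraMap F (PadicAlgCl q) (x : F)‖ = 1) : IsUnit x := by
  have hx0 : (x : F) ≠ 0 := by
    intro h0
    rw [h0, map_zero, norm_zero] at h
    exact zero_ne_one h
  have hinv : (x : F)⁻¹ ∈ H66.intRing q F := by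
    rw [mem_intRing, map_inv₀, norm_inv, h, inv_one]
  refine IsUnit.of_mul_eq_one ⟨(x : F)⁻¹, hinv⟩ ?_
  apply Subtype.ext
  show (x : F) * (x : F)⁻¹ = 1
  exact mul_inv_cancel₀ hx0

theorem redF_eq_zero_of_mem (x : H66.intRing q F)
    (hx : x ∈ IsLocalRing.maximalIdeal (H66.intRing q F)) : redF q F x = 0 := by
  rw [redF_apply, red_eq_zero_iff, coe_incl]
  have hle : ‖algebraMap F (PadicAlgCl q) (x : F)‖ ≤ 1 := (mem_intRing q F).1 x.2
  refine lt_of_le_of_ne hle fun h => ?_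
  rw [IsLocalRing.mem_maximalIdeal, mem_nonunits_iff] at hx
  exact hx (isUnit_intRing_of_norm q F x h)

/-- The embedding of residue fields. -/
def resEmb : IsLocalRing.ResidueField (H66.intRing q F) →+* kΩ q :=
  Ideal.Quotient.lift _ (redF q F) (redF_eq_zero_of_mem q F)

theorem resEmb_residue (x : H66.intRing q F) :
    resEmb q F (IsLocalRing.residue _ x) = redF q F x := rfl

variable [Algebra ℚ_[q] F] [IsScalarTower ℚ_[q] F (PadicAlgCl q)] [FiniteDimensional ℚ_[q] F]

theorem redF_pow_resCard (c : H66.intRing q F) :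
    redF q F c ^ H66.resCard q F = redF q F c := by
  have := H66.leafResFinite q F
  have := Fintype.ofFinite (IsLocalRing.ResidueField (H66.intRing q F))
  have h := FiniteField.pow_card (IsLocalRing.residue (H66.intRing q F) c)
  rw [← Nat.card_eq_fintype_card] at h
  have h2 := congrArg (resEmb q F) h
  rw [map_pow, resEmb_residue] at h2
  exact h2

theorem one_lt_resCard : 1 < H66.resCard q F := by
  have := H66.leafResFinite q F
  have := Fintype.ofFinite (IsLocalRing.ResidueField (H66.intRing q F))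
  rw [H66.resCard, Nat.card_eq_fintype_card]
  exact Fintype.one_lt_card

theorem exists_redF_eq (a : kΩ q) (ha : a ^ H66.resCard q F = a) :
    ∃ c : H66.intRing q F, redF q F c = a := by
  classical
  have := H66.leafResFinite q F
  have := Fintype.ofFinite (IsLocalRing.ResidueField (H66.intRing q F))
  have hQ : 1 < H66.resCard q F := one_lt_resCard q F
  have hP0 : (X ^ H66.resCard q F - X : (kΩ q)[X]) ≠ 0 :=
    FiniteField.X_pow_card_sub_X_ne_zero _ hQ
  have hdeg : (X ^ H66.resCard q F - X : (kΩ q)[X]).natDegree = H66.resCard q F :=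
    FiniteField.X_pow_card_sub_X_natDegree_eq _ hQ
  have hroot : ∀ b : kΩ q, b ∈ (X ^ H66.resCard q F - X : (kΩ q)[X]).roots.toFinset ↔
      b ^ H66.resCard q F = b := by
    intro b
    rw [Multiset.mem_toFinset, mem_roots hP0, IsRoot.def, eval_sub, eval_pow, eval_X,
      sub_eq_zero]
  have hsub : Finset.univ.image (resEmb q F) ⊆
      (X ^ H66.resCard q F - X : (kΩ q)[X]).roots.toFinset := by
    intro a ha
    obtain ⟨b, -, rfl⟩ := Finset.mem_image.1 ha
    rw [hroot]
    obtain ⟨c, rfl⟩ := IsLocalRing.residue_surjective b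
    rw [resEmb_residue]
    exact redF_pow_resCard q F c
  have hcard : (X ^ H66.resCard q F - X : (kΩ q)[X]).roots.toFinset.card ≤
      (Finset.univ.image (resEmb q F)).card := by
    rw [Finset.card_image_of_injective _ (resEmb q F).injective, Finset.card_univ,
      ← Nat.card_eq_fintype_card]
    calc (X ^ H66.resCard q F - X : (kΩ q)[X]).roots.toFinset.card
        ≤ Multiset.card (X ^ H66.resCard q F - X : (kΩ q)[X]).roots :=
          Multiset.toFinset_card_le _
      _ ≤ (X ^ H66.resCard q F - X : (kΩ q)[X]).natDegree := card_roots' _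
      _ = H66.resCard q F := hdeg
  have heq := Finset.eq_of_subset_of_card_le hsub hcard
  have hmem : a ∈ (X ^ H66.resCard q F - X : (kΩ q)[X]).roots.toFinset := (hroot a).2 ha
  rw [← heq] at hmem
  obtain ⟨b, -, rfl⟩ := Finset.mem_image.1 hmem
  obtain ⟨c, rfl⟩ := IsLocalRing.residue_surjective b
  exact ⟨c, (resEmb_residue q F c).symm⟩

theorem exists_resCard_eq : ∃ f : ℕ, f ≠ 0 ∧ H66.resCard q F = q ^ f := by
  have := H66.leafResFinite q F
  have := Fintype.ofFinite (IsLocalRing.ResidueField (H66.intRing q F))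
  have : CharP (IsLocalRing.ResidueField (H66.intRing q F)) q :=
    RingHom.charP (resEmb q F) (resEmb q F).injective q
  obtain ⟨n, -, hn⟩ := FiniteField.card (IsLocalRing.ResidueField (H66.intRing q F)) q
  exact ⟨n, n.ne_zero, by rw [H66.resCard, Nat.card_eq_fintype_card]; exact hn⟩

/-- `x ↦ x ^ Q` is a ring endomorphism of the residue field of `Ω`. -/
theorem exists_frob : ∃ Fr : kΩ q →+* kΩ q, ∀ x, Fr x = x ^ H66.resCard q F := by
  obtain ⟨f, -, hf⟩ := exists_resCard_eq q F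
  refine ⟨iterateFrobenius (kΩ q) q f, fun x => ?_⟩
  rw [iterateFrobenius_def, hf]

end Field


/-! ### The conjugates of a root of unity of order `Q ^ n - 1` -/

section Main

variable (F : Type) [Field F] [Algebra ℚ_[q] F] [Algebra F (PadicAlgCl q)]
  [IsScalarTower ℚ_[q] F (PadicAlgCl q)] [FiniteDimensional ℚ_[q] F]

theorem coprime_resCard_pow_sub_one (n : ℕ) (hn : 0 < n) :
    Nat.Coprime (H66.resCard q F ^ n - 1) (H66.resCard q F) := by
  have hQ := one_lt_resCard q F
  have h1 : H66.resCard q F ^ n - 1 + 1 = H66.resCard q F ^ n :=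
    Nat.sub_add_cancel (Nat.one_le_pow _ _ (by omega))
  have h2 : Nat.Coprime (H66.resCard q F ^ n - 1) (1 + (H66.resCard q F ^ n - 1)) :=
    Nat.coprime_add_self_right.2 (Nat.coprime_one_right _)
  rw [add_comm, h1] at h2
  exact h2.coprime_dvd_right (dvd_pow_self _ hn.ne')

theorem norm_natCast_resCard_pow_sub_one (n : ℕ) (hn : 0 < n) :
    ‖((H66.resCard q F ^ n - 1 : ℕ) : PadicAlgCl q)‖ = 1 := by
  obtain ⟨f, hf0, hf⟩ := exists_resCard_eq q F
  have hcop := coprime_resCard_pow_sub_one q F n hn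
  have hq : Nat.Coprime q (H66.resCard q F ^ n - 1) := by
    have hdvd : q ∣ H66.resCard q F := by
      rw [hf]
      exact dvd_pow_self q hf0
    exact (hcop.coprime_dvd_right hdvd).symm
  have h : ((H66.resCard q F ^ n - 1 : ℕ) : PadicAlgCl q) =
      algebraMap ℚ_[q] (PadicAlgCl q) ((H66.resCard q F ^ n - 1 : ℕ) : ℚ_[q]) := by
    simp
  rw [h, PadicAlgCl.norm_extends q, Padic.norm_natCast_eq_one_iff]
  exact hq

omit [Algebra ℚ_[q] F] [IsScalarTower ℚ_[q] F (PadicAlgCl q)] [FiniteDimensional ℚ_[q] F] in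
theorem exists_intPoly {m : ℕ} (hm : m ≠ 0) {ζ : PadicAlgCl q} (hζ : ζ ^ m = 1) :
    ∃ gO : (H66.intRing q F)[X], gO.map (algebraMap (H66.intRing q F) F) = minpoly F ζ := by
  let _ : Algebra (H66.intRing q F) (PadicAlgCl q) :=
    ((algebraMap F (PadicAlgCl q)).comp (algebraMap (H66.intRing q F) F)).toAlgebra
  have : IsScalarTower (H66.intRing q F) F (PadicAlgCl q) :=
    IsScalarTower.of_algebraMap_eq (fun _ => rfl)
  have hint : IsIntegral (H66.intRing q F) ζ :=
    ⟨X ^ m - C 1, monic_X_pow_sub_C 1 hm, by simp [hζ]⟩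
  exact ⟨minpoly (H66.intRing q F) ζ,
    (minpoly.isIntegrallyClosed_eq_field_fractions' F hint).symm⟩

omit [Algebra ℚ_[q] F] [IsScalarTower ℚ_[q] F (PadicAlgCl q)] [FiniteDimensional ℚ_[q] F] in
theorem red_eval₂ (P : (H66.intRing q F)[X]) (x : OΩ q) :
    red q (P.eval₂ (incl q F) x) = (P.map (redF q F)).eval (red q x) := by
  rw [eval_map, redF, hom_eval₂]

omit [Algebra ℚ_[q] F] [IsScalarTower ℚ_[q] F (PadicAlgCl q)] [FiniteDimensional ℚ_[q] F] in
theorem coe_eval₂ (P : (H66.intRing q F)[X]) (x : OΩ q) :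
    ((P.eval₂ (incl q F) x : OΩ q) : PadicAlgCl q) =
      aeval (x : PadicAlgCl q) (P.map (algebraMap (H66.intRing q F) F)) := by
  rw [aeval_def, eval₂_map]
  exact hom_eval₂ P (incl q F) (OΩ q).subtype x

omit [Algebra ℚ_[q] F] [IsScalarTower ℚ_[q] F (PadicAlgCl q)] [FiniteDimensional ℚ_[q] F] in
theorem norm_aeval_lt_one_iff (P : (H66.intRing q F)[X]) (x : OΩ q) :
    ‖aeval (x : PadicAlgCl q) (P.map (algebraMap (H66.intRing q F) F))‖ < 1 ↔
      (P.map (redF q F)).eval (red q x) = 0 := by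
  rw [← coe_eval₂, ← red_eq_zero_iff, red_eval₂]

theorem eval_pow_resCard (P : (H66.intRing q F)[X]) (y : kΩ q) :
    (P.map (redF q F)).eval (y ^ H66.resCard q F) =
      ((P.map (redF q F)).eval y) ^ H66.resCard q F := by
  obtain ⟨Fr, hFr⟩ := exists_frob q F
  have hcomp : Fr.comp (redF q F) = redF q F :=
    RingHom.ext fun c => by rw [RingHom.comp_apply, hFr, redF_pow_resCard]
  rw [← hFr, ← hFr, eval_map, eval_map, hom_eval₂, hcomp]

omit [Algebra ℚ_[q] F] [IsScalarTower ℚ_[q] F (PadicAlgCl q)] [FiniteDimensional ℚ_[q] F] in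
theorem pow_eq_one_of_aeval_minpoly {m : ℕ} {ζ a : PadicAlgCl q} (hζ : ζ ^ m = 1)
    (ha : aeval a (minpoly F ζ) = 0) : a ^ m = 1 := by
  have hdvd : minpoly F ζ ∣ X ^ m - 1 := minpoly.dvd F ζ (by simp [hζ])
  have h := aeval_eq_zero_of_dvd_aeval_eq_zero hdvd ha
  simpa [sub_eq_zero] using h

omit [Algebra ℚ_[q] F] [IsScalarTower ℚ_[q] F (PadicAlgCl q)] [FiniteDimensional ℚ_[q] F] in
theorem aeval_minpoly_eq_zero_of_norm_lt {m : ℕ} (hm : ‖(m : PadicAlgCl q)‖ = 1)
    {ζ x : PadicAlgCl q} (hζ : ζ ^ m = 1) (hx : x ^ m = 1)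
    (hlt : ‖aeval x (minpoly F ζ)‖ < 1) : aeval x (minpoly F ζ) = 0 := by
  have hm0 : m ≠ 0 := by
    rintro rfl
    simp at hm
  have hint : IsIntegral F ζ := ⟨X ^ m - C 1, monic_X_pow_sub_C 1 hm0, by simp [hζ]⟩
  by_contra hne
  have hsplit : ((minpoly F ζ).map (algebraMap F (PadicAlgCl q))).Splits := IsAlgClosed.splits _
  have hprod := hsplit.aeval_eq_prod_aroots_of_monic (minpoly.monic hint) x
  have h1 : ‖(((minpoly F ζ).aroots (PadicAlgCl q)).map (x - ·)).prod‖ = 1 := by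
    refine Multiset.prod_induction (fun y : PadicAlgCl q => ‖y‖ = 1) _
      (fun a b ha hb => by rw [norm_mul, ha, hb, one_mul]) norm_one ?_
    intro y hy
    obtain ⟨a, ha, rfl⟩ := Multiset.mem_map.1 hy
    have ha' : aeval a (minpoly F ζ) = 0 := (mem_aroots.1 ha).2
    refine norm_sub_eq_one_of_pow_eq_one hm hx (pow_eq_one_of_aeval_minpoly q F hζ ha') ?_
    rintro rfl
    exact hne ha'
  rw [hprod, h1] at hlt
  exact lt_irrefl _ hlt

theorem aeval_pow_resCard_eq_zero {m : ℕ} (hm : ‖(m : PadicAlgCl q)‖ = 1)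
    {ζ ρ : PadicAlgCl q} (hζ : ζ ^ m = 1) (hρ : aeval ρ (minpoly F ζ) = 0) :
    aeval (ρ ^ H66.resCard q F) (minpoly F ζ) = 0 := by
  have hm0 : m ≠ 0 := by
    rintro rfl
    simp at hm
  have hρm : ρ ^ m = 1 := pow_eq_one_of_aeval_minpoly q F hζ hρ
  obtain ⟨gO, hgO⟩ := exists_intPoly q F hm0 hζ
  have hρn : ‖ρ‖ ≤ 1 := (norm_eq_one_of_pow_eq_one hm0 hρm).le
  have h1 : (gO.map (redF q F)).eval (red q ⟨ρ, (mem_OΩ q).2 hρn⟩) = 0 := by
    rw [← norm_aeval_lt_one_iff, hgO]
    show ‖aeval ρ (minpoly F ζ)‖ < 1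
    rw [hρ, norm_zero]
    exact zero_lt_one
  have h2 : (gO.map (redF q F)).eval
      (red q ((⟨ρ, (mem_OΩ q).2 hρn⟩ : OΩ q) ^ H66.resCard q F)) = 0 := by
    rw [map_pow, eval_pow_resCard, h1, zero_pow (by have := one_lt_resCard q F; omega)]
  rw [← norm_aeval_lt_one_iff, hgO] at h2
  refine aeval_minpoly_eq_zero_of_norm_lt q F hm hζ ?_ h2
  show (ρ ^ H66.resCard q F) ^ m = 1
  rw [← pow_mul, mul_comm, pow_mul, hρm, one_pow]

theorem aeval_pow_resCard_pow_eq_zero {m : ℕ} (hm : ‖(m : PadicAlgCl q)‖ = 1)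
    {ζ : PadicAlgCl q} (hζ : ζ ^ m = 1) (i : ℕ) :
    aeval (ζ ^ H66.resCard q F ^ i) (minpoly F ζ) = 0 := by
  induction i with
  | zero =>
    rw [pow_zero, pow_one]
    exact minpoly.aeval F ζ
  | succ i ih =>
    have h := aeval_pow_resCard_eq_zero q F hm hζ ih
    rwa [← pow_mul, ← pow_succ] at h


theorem exists_eq_pow_of_aeval_minpoly {n : ℕ} (hn : 0 < n) {ζ ρ : PadicAlgCl q}
    (hζ : ζ ^ (H66.resCard q F ^ n - 1) = 1) (hρ : aeval ρ (minpoly F ζ) = 0) :
    ∃ i < n, ρ = ζ ^ H66.resCard q F ^ i := by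
  classical
  have hQ : 1 < H66.resCard q F := one_lt_resCard q F
  have hm : ‖((H66.resCard q F ^ n - 1 : ℕ) : PadicAlgCl q)‖ = 1 :=
    norm_natCast_resCard_pow_sub_one q F n hn
  have hm0 : H66.resCard q F ^ n - 1 ≠ 0 := by
    intro h
    rw [h] at hm
    simp at hm
  have hint : IsIntegral F ζ :=
    ⟨X ^ (H66.resCard q F ^ n - 1) - C 1, monic_X_pow_sub_C 1 hm0, by simp [hζ]⟩
  have hQn : H66.resCard q F ^ n = H66.resCard q F ^ n - 1 + 1 :=
    (Nat.sub_add_cancel (Nat.one_le_pow _ _ (by omega))).symm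
  have hζn : ‖ζ‖ ≤ 1 := (norm_eq_one_of_pow_eq_one hm0 hζ).le
  have hρm : ρ ^ (H66.resCard q F ^ n - 1) = 1 := pow_eq_one_of_aeval_minpoly q F hζ hρ
  have hρn : ‖ρ‖ ≤ 1 := (norm_eq_one_of_pow_eq_one hm0 hρm).le
  obtain ⟨Fr, hFr⟩ := exists_frob q F
  obtain ⟨ζO, hζO⟩ : ∃ ζO : OΩ q, (ζO : PadicAlgCl q) = ζ := ⟨⟨ζ, (mem_OΩ q).2 hζn⟩, rfl⟩
  obtain ⟨ρO, hρO⟩ : ∃ ρO : OΩ q, (ρO : PadicAlgCl q) = ρ := ⟨⟨ρ, (mem_OΩ q).2 hρn⟩, rfl⟩
  obtain ⟨G, hG⟩ : ∃ G : (kΩ q)[X],
      G = ∏ i ∈ Finset.range n, (X - C (red q ζO ^ H66.resCard q F ^ i)) := ⟨_, rfl⟩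
  have hGFr : G.map Fr = G := by
    have hmap : G.map Fr =
        ∏ i ∈ Finset.range n, (X - C (red q ζO ^ H66.resCard q F ^ (i + 1))) := by
      rw [hG, Polynomial.map_prod]
      refine Finset.prod_congr rfl fun i _ => ?_
      rw [Polynomial.map_sub, map_X, map_C, hFr, ← pow_mul, ← pow_succ]
    have h1 := Finset.prod_range_succ
      (fun i => (X - C (red q ζO ^ H66.resCard q F ^ i) : (kΩ q)[X])) n
    have h2 := Finset.prod_range_succ'
      (fun i => (X - C (red q ζO ^ H66.resCard q F ^ i) : (kΩ q)[X])) n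
    have h3 : red q ζO ^ H66.resCard q F ^ n = red q ζO ^ H66.resCard q F ^ 0 := by
      have h4 : ζO ^ (H66.resCard q F ^ n - 1) = 1 := by
        apply Subtype.ext
        show (ζO : PadicAlgCl q) ^ (H66.resCard q F ^ n - 1) = 1
        rw [hζO]
        exact hζ
      rw [pow_zero, pow_one, hQn, pow_succ, ← map_pow, h4, map_one, one_mul]
    rw [h1, h3] at h2
    rw [hmap, hG]
    exact (mul_right_cancel₀ (X_sub_C_ne_zero _) h2).symm
  have hcoeff : ∀ j, G.coeff j ^ H66.resCard q F = G.coeff j := by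
    intro j
    rw [← hFr, ← coeff_map, hGFr]
  have hlift : G ∈ lifts (redF q F) := by
    rw [lifts_iff_coeff_lifts]
    intro j
    obtain ⟨c, hc⟩ := exists_redF_eq q F (G.coeff j) (hcoeff j)
    exact ⟨c, hc⟩
  obtain ⟨P, hP⟩ := (mem_lifts G).1 hlift
  have hGζ : G.eval (red q ζO) = 0 := by
    rw [hG, eval_prod]
    refine Finset.prod_eq_zero (Finset.mem_range.2 hn) ?_
    rw [eval_sub, eval_X, eval_C, pow_zero, pow_one, sub_self]
  have hPζ : ‖aeval ζ (P.map (algebraMap (H66.intRing q F) F))‖ < 1 := by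
    have h := (norm_aeval_lt_one_iff q F P ζO).2 (by rw [hP]; exact hGζ)
    rwa [hζO] at h
  -- the conjugation `ζ ↦ ρ` is an isometry
  have hPρ : ‖aeval ρ (P.map (algebraMap (H66.intRing q F) F))‖ < 1 := by
    have hmem : ρ ∈ (minpoly F ζ).aroots (PadicAlgCl q) := by
      rw [mem_aroots]
      exact ⟨minpoly.ne_zero hint, hρ⟩
    have hτ : (algHomAdjoinIntegralEquiv F hint).symm ⟨ρ, hmem⟩ (AdjoinSimple.gen F ζ) = ρ :=
      algHomAdjoinIntegralEquiv_symm_apply_gen F hint _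
    have h1 : aeval ρ (P.map (algebraMap (H66.intRing q F) F)) =
        (algHomAdjoinIntegralEquiv F hint).symm ⟨ρ, hmem⟩
          (aeval (AdjoinSimple.gen F ζ) (P.map (algebraMap (H66.intRing q F) F))) := by
      rw [← aeval_algHom_apply, hτ]
    have h2 : aeval ζ (P.map (algebraMap (H66.intRing q F) F)) =
        ((aeval (AdjoinSimple.gen F ζ) (P.map (algebraMap (H66.intRing q F) F)) : F⟮ζ⟯) :
          PadicAlgCl q) :=
      aeval_algHom_apply (F⟮ζ⟯.val) (AdjoinSimple.gen F ζ)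
        (P.map (algebraMap (H66.intRing q F) F))
    rw [h1, H53.norm_algHom q F⟮ζ⟯, ← h2]
    exact hPζ
  have hGρ : G.eval (red q ρO) = 0 := by
    rw [← hP]
    refine (norm_aeval_lt_one_iff q F P ρO).1 ?_
    rw [hρO]
    exact hPρ
  rw [hG, eval_prod, Finset.prod_eq_zero_iff] at hGρ
  obtain ⟨i, hi, hi0⟩ := hGρ
  refine ⟨i, Finset.mem_range.1 hi, ?_⟩
  rw [eval_sub, eval_X, eval_C, sub_eq_zero, ← map_pow, red_eq_iff] at hi0
  by_contra hne
  have hpow : (ζ ^ H66.resCard q F ^ i) ^ (H66.resCard q F ^ n - 1) = 1 := by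
    rw [← pow_mul, mul_comm, pow_mul, hζ, one_pow]
  have h5 := norm_sub_eq_one_of_pow_eq_one hm hρm hpow hne
  have h6 : ‖ρ - ζ ^ H66.resCard q F ^ i‖ < 1 := by
    rw [← hρO, ← hζO]
    exact hi0
  linarith

theorem pow_resCard_injOn {n : ℕ} (hn : 0 < n) {ζ : PadicAlgCl q}
    (hζ : IsPrimitiveRoot ζ (H66.resCard q F ^ n - 1)) :
    Set.InjOn (fun i : ℕ => ζ ^ H66.resCard q F ^ i) (Finset.range n : Set ℕ) := by
  have hQ : 1 < H66.resCard q F := one_lt_resCard q F
  have key : ∀ i j, i < j → j < n →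
      ζ ^ H66.resCard q F ^ i ≠ ζ ^ H66.resCard q F ^ j := by
    intro i j hij hjn h
    have hm := norm_natCast_resCard_pow_sub_one q F n hn
    have hm0 : H66.resCard q F ^ n - 1 ≠ 0 := by
      intro h0
      rw [h0] at hm
      simp at hm
    have hz0 : ζ ^ H66.resCard q F ^ i ≠ 0 := pow_ne_zero _ (hζ.ne_zero hm0)
    have hle : H66.resCard q F ^ i ≤ H66.resCard q F ^ j :=
      Nat.pow_le_pow_right (by omega) hij.le
    have e : H66.resCard q F ^ j =
        H66.resCard q F ^ i + H66.resCard q F ^ i * (H66.resCard q F ^ (j - i) - 1) := by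
      rw [Nat.mul_sub, mul_one, ← pow_add, Nat.add_sub_cancel' hij.le,
        Nat.add_sub_cancel' hle]
    rw [e, pow_add] at h
    have h1 : ζ ^ (H66.resCard q F ^ i * (H66.resCard q F ^ (j - i) - 1)) = 1 :=
      (left_eq_mul₀ hz0).1 h
    have hcop : Nat.Coprime (H66.resCard q F ^ n - 1) (H66.resCard q F ^ i) :=
      (coprime_resCard_pow_sub_one q F n hn).pow_right i
    have h2 : H66.resCard q F ^ n - 1 ∣ H66.resCard q F ^ (j - i) - 1 :=
      hcop.dvd_of_dvd_mul_left ((hζ.pow_eq_one_iff_dvd _).1 h1)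
    have h3 : H66.resCard q F ^ 1 ≤ H66.resCard q F ^ (j - i) :=
      Nat.pow_le_pow_right (by omega) (by omega)
    have h4 : H66.resCard q F ^ (j - i) < H66.resCard q F ^ n :=
      Nat.pow_lt_pow_right hQ (by omega)
    have h5 := Nat.le_of_dvd (by rw [pow_one] at h3; omega) h2
    omega
  intro i hi j hj h
  rcases lt_trichotomy i j with hlt | heq | hgt
  · exact absurd h (key i j hlt (Finset.mem_range.1 hj))
  · exact heq
  · exact absurd h.symm (key j i hgt (Finset.mem_range.1 hi))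

theorem natDegree_minpoly_eq {n : ℕ} (hn : 0 < n) {ζ : PadicAlgCl q}
    (hζ : IsPrimitiveRoot ζ (H66.resCard q F ^ n - 1)) : (minpoly F ζ).natDegree = n := by
  classical
  have hm := norm_natCast_resCard_pow_sub_one q F n hn
  have hm0 : H66.resCard q F ^ n - 1 ≠ 0 := by
    intro h
    rw [h] at hm
    simp at hm
  have hint : IsIntegral F ζ :=
    ⟨X ^ (H66.resCard q F ^ n - 1) - C 1, monic_X_pow_sub_C 1 hm0, by simp [hζ.pow_eq_one]⟩
  have hF0 : CharZero F := charZero_of_injective_algebraMap (algebraMap ℚ_[q] F).injective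
  have hsep : (minpoly F ζ).Separable := (minpoly.irreducible hint).separable
  have hsplit : ((minpoly F ζ).map (algebraMap F (PadicAlgCl q))).Splits := IsAlgClosed.splits _
  have hroots : ((minpoly F ζ).aroots (PadicAlgCl q)).toFinset =
      (Finset.range n).image (fun i => ζ ^ H66.resCard q F ^ i) := by
    ext ρ
    rw [Multiset.mem_toFinset, mem_aroots, Finset.mem_image]
    constructor
    · rintro ⟨-, hρ⟩
      obtain ⟨i, hi, rfl⟩ := exists_eq_pow_of_aeval_minpoly q F hn hζ.pow_eq_one hρ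
      exact ⟨i, Finset.mem_range.2 hi, rfl⟩
    · rintro ⟨i, -, rfl⟩
      exact ⟨minpoly.ne_zero hint, aeval_pow_resCard_pow_eq_zero q F hm hζ.pow_eq_one i⟩
  have hcard : ((minpoly F ζ).aroots (PadicAlgCl q)).toFinset.card = n := by
    rw [hroots, Finset.card_image_of_injOn (pow_resCard_injOn q F hn hζ), Finset.card_range]
  have hnodup : ((minpoly F ζ).aroots (PadicAlgCl q)).Nodup := nodup_roots hsep.map
  rw [← hcard, Multiset.toFinset_card_of_nodup hnodup]
  have h := hsplit.natDegree_eq_card_roots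
  rw [natDegree_map] at h
  exact h


omit [FiniteDimensional ℚ_[q] F] in
/-- A simple extension `F⟮α⟯` generated by a unit `α` whose conjugates are pairwise incongruent
modulo the maximal ideal is unramified (Vandermonde argument). -/
theorem isUnram_adjoin_simple {α : PadicAlgCl q} (hint : IsIntegral F α) (hαn : ‖α‖ = 1)
    (hdiff : ∀ β β' : PadicAlgCl q, aeval β (minpoly F α) = 0 → aeval β' (minpoly F α) = 0 →
      β ≠ β' → ‖β - β'‖ = 1) :
    H66.IsUnram q F F⟮α⟯ := by
  intro x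
  classical
  have hF0 : CharZero F := charZero_of_injective_algebraMap (algebraMap ℚ_[q] F).injective
  have hsep : IsSeparable F α := (minpoly.irreducible hint).separable
  have hsplit : ((minpoly F α).map (algebraMap F (PadicAlgCl q))).Splits := IsAlgClosed.splits _
  let pb := IntermediateField.adjoin.powerBasis hint
  have hdim : pb.dim = (minpoly F α).natDegree := IntermediateField.adjoin.powerBasis_dim hint
  have hgen : pb.gen = AdjoinSimple.gen F α := IntermediateField.adjoin.powerBasis_gen hint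
  have hcard : Nat.card (F⟮α⟯ →ₐ[F] PadicAlgCl q) = pb.dim := by
    rw [hdim]
    exact IntermediateField.card_algHom_adjoin_integral F hint hsep hsplit
  have hdpos : 0 < pb.dim := by
    rw [hdim]
    exact minpoly.natDegree_pos hint
  have : Finite (F⟮α⟯ →ₐ[F] PadicAlgCl q) := Nat.finite_of_card_ne_zero (by omega)
  let e : Fin pb.dim ≃ (F⟮α⟯ →ₐ[F] PadicAlgCl q) := (Finite.equivFinOfCardEq hcard).symm
  let c : Fin pb.dim → PadicAlgCl q := fun i => algebraMap F (PadicAlgCl q) (pb.basis.repr x i)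
  let β : Fin pb.dim → PadicAlgCl q := fun j => e j pb.gen
  have hexp : ∀ τ : F⟮α⟯ →ₐ[F] PadicAlgCl q, τ x = ∑ i, c i * τ pb.gen ^ (i : ℕ) := by
    intro τ
    conv_lhs => rw [← pb.basis.sum_repr x]
    rw [map_sum]
    refine Finset.sum_congr rfl fun i _ => ?_
    rw [Algebra.smul_def, map_mul, AlgHom.commutes, pb.basis_eq_pow, map_pow]
  have hβroot : ∀ j, aeval (β j) (minpoly F α) = 0 := by
    intro j
    show aeval (e j pb.gen) (minpoly F α) = 0
    rw [aeval_algHom_apply, hgen]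
    have h0 : aeval (AdjoinSimple.gen F α) (minpoly F α) = 0 := by
      rw [← minpoly_gen F α]
      exact minpoly.aeval F _
    rw [h0, map_zero]
  have hβn : ∀ j, ‖β j‖ = 1 := by
    intro j
    show ‖e j pb.gen‖ = 1
    rw [H53.norm_algHom q F⟮α⟯ (e j) pb.gen, hgen, AdjoinSimple.coe_gen]
    exact hαn
  have hβinj : Function.Injective β := by
    intro j j' h
    apply e.injective
    exact pb.algHom_ext h
  let V : Matrix (Fin pb.dim) (Fin pb.dim) (PadicAlgCl q) := Matrix.vandermonde β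
  have hVent : ∀ j i, ‖V j i‖ ≤ 1 := by
    intro j i
    show ‖β j ^ (i : ℕ)‖ ≤ 1
    rw [norm_pow, hβn, one_pow]
  have hVdet : ‖V.det‖ = 1 := by
    show ‖(Matrix.vandermonde β).det‖ = 1
    rw [Matrix.det_vandermonde, norm_prod]
    refine Finset.prod_eq_one fun i _ => ?_
    rw [norm_prod]
    refine Finset.prod_eq_one fun j hj => ?_
    refine hdiff _ _ (hβroot j) (hβroot i) ?_
    intro h
    have := hβinj h
    rw [Finset.mem_Ioi] at hj
    exact (ne_of_gt hj) this
  have hVc : ∀ j, (V.mulVec c) j = e j x := by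
    intro j
    rw [hexp (e j)]
    show ∑ i, V j i * c i = _
    refine Finset.sum_congr rfl fun i _ => ?_
    show β j ^ (i : ℕ) * c i = c i * (e j pb.gen) ^ (i : ℕ)
    rw [mul_comm]
  have hadj : V.adjugate.mulVec (V.mulVec c) = V.det • c := by
    rw [Matrix.mulVec_mulVec, Matrix.adjugate_mul, Matrix.smul_mulVec, Matrix.one_mulVec]
  have hcle : ∀ i, ‖c i‖ ≤ ‖(x : PadicAlgCl q)‖ := by
    intro i
    have h := congrFun hadj i
    have h' : V.det * c i = ∑ j, V.adjugate i j * e j x := by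
      rw [← smul_eq_mul, ← Pi.smul_apply, ← h]
      show ∑ j, V.adjugate i j * (V.mulVec c) j = _
      refine Finset.sum_congr rfl fun j _ => ?_
      rw [hVc j]
    have h2 : ‖V.det * c i‖ ≤ ‖(x : PadicAlgCl q)‖ := by
      rw [h']
      refine IsUltrametricDist.norm_sum_le_of_forall_le_of_nonneg (norm_nonneg _) fun j _ => ?_
      rw [norm_mul, H53.norm_algHom q F⟮α⟯ (e j) x]
      exact mul_le_of_le_one_left (norm_nonneg _) (H53.norm_adjugate_le q V hVent i j)
    rwa [norm_mul, hVdet, one_mul] at h2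
  obtain ⟨i₀, -, hi₀⟩ := Finset.exists_max_image Finset.univ (fun i => ‖c i‖)
    ⟨⟨0, hdpos⟩, Finset.mem_univ _⟩
  have hxle : ‖(x : PadicAlgCl q)‖ ≤ ‖c i₀‖ := by
    have h := hexp (F⟮α⟯.val)
    have hv : (F⟮α⟯.val) x = (x : PadicAlgCl q) := rfl
    have hg : (F⟮α⟯.val) pb.gen = α := by
      rw [hgen]
      exact AdjoinSimple.coe_gen F α
    rw [hv, hg] at h
    rw [h]
    refine IsUltrametricDist.norm_sum_le_of_forall_le_of_nonneg (norm_nonneg _) fun i _ => ?_
    rw [norm_mul, norm_pow, hαn, one_pow, mul_one]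
    exact hi₀ i (Finset.mem_univ _)
  exact ⟨pb.basis.repr x i₀, le_antisymm hxle (hcle i₀)⟩


/-! ### Assembly -/

omit [Algebra ℚ_[q] F] [IsScalarTower ℚ_[q] F (PadicAlgCl q)] [FiniteDimensional ℚ_[q] F] in
/-- `unramExt q F n` is generated by a primitive root of unity. -/
theorem unramExt_eq_adjoin_simple {n : ℕ} {ζ : PadicAlgCl q}
    (hm0 : H66.resCard q F ^ n - 1 ≠ 0)
    (hζ : IsPrimitiveRoot ζ (H66.resCard q F ^ n - 1)) : H66.unramExt q F n = F⟮ζ⟯ := by
  have : NeZero (H66.resCard q F ^ n - 1) := ⟨hm0⟩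
  apply le_antisymm
  · rw [H66.unramExt, IntermediateField.adjoin_le_iff]
    intro x hx
    obtain ⟨i, -, rfl⟩ := hζ.eq_pow_of_pow_eq_one hx
    exact pow_mem (mem_adjoin_simple_self F ζ) i
  · rw [H66.unramExt]
    exact IntermediateField.adjoin.mono F _ _ (Set.singleton_subset_iff.2 hζ.pow_eq_one)

omit [Algebra ℚ_[q] F] [IsScalarTower ℚ_[q] F (PadicAlgCl q)] [FiniteDimensional ℚ_[q] F] in
theorem unramExt_eq_adjoin_rootSet {n : ℕ} (hm0 : H66.resCard q F ^ n - 1 ≠ 0) :
    H66.unramExt q F n =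
      adjoin F ((X ^ (H66.resCard q F ^ n - 1) - C 1 : F[X]).rootSet (PadicAlgCl q)) := by
  rw [H66.unramExt]
  congr 1
  ext x
  rw [mem_rootSet]
  have h0 : (X ^ (H66.resCard q F ^ n - 1) - C 1 : F[X]) ≠ 0 :=
    X_pow_sub_C_ne_zero (Nat.pos_of_ne_zero hm0) 1
  constructor
  · intro hx
    refine ⟨h0, ?_⟩
    have hx' : x ^ (H66.resCard q F ^ n - 1) = 1 := hx
    simp [hx']
  · rintro ⟨-, hx⟩
    have hx' : x ^ (H66.resCard q F ^ n - 1) - 1 = 0 := by simpa using hx
    exact sub_eq_zero.1 hx'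

theorem isCyclic_aut_adjoin {n : ℕ} (hn : 0 < n) {ζ : PadicAlgCl q}
    (hζ : IsPrimitiveRoot ζ (H66.resCard q F ^ n - 1)) [FiniteDimensional F F⟮ζ⟯]
    [IsGalois F F⟮ζ⟯] : IsCyclic (F⟮ζ⟯ ≃ₐ[F] F⟮ζ⟯) := by
  have hm := norm_natCast_resCard_pow_sub_one q F n hn
  have hm0 : H66.resCard q F ^ n - 1 ≠ 0 := by
    intro h
    rw [h] at hm
    simp at hm
  have hint : IsIntegral F ζ :=
    ⟨X ^ (H66.resCard q F ^ n - 1) - C 1, monic_X_pow_sub_C 1 hm0, by simp [hζ.pow_eq_one]⟩
  have hrank : Module.finrank F F⟮ζ⟯ = n := by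
    rw [IntermediateField.adjoin.finrank hint, natDegree_minpoly_eq q F hn hζ]
  have hcard : Nat.card (F⟮ζ⟯ ≃ₐ[F] F⟮ζ⟯) = n := by
    rw [IsGalois.card_aut_eq_finrank, hrank]
  have hroot : aeval (AdjoinSimple.gen F ζ ^ H66.resCard q F)
      (minpoly F (AdjoinSimple.gen F ζ)) = 0 := by
    rw [minpoly_gen]
    apply (algebraMap F⟮ζ⟯ (PadicAlgCl q)).injective
    rw [map_zero, ← aeval_algebraMap_apply]
    have h := aeval_pow_resCard_pow_eq_zero q F hm hζ.pow_eq_one 1
    rw [pow_one] at h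
    exact h
  obtain ⟨φ, hφ⟩ := minpoly.exists_algEquiv_of_root'
    (Algebra.IsAlgebraic.isAlgebraic (AdjoinSimple.gen F ζ)) hroot
  have hpow : ∀ i : ℕ,
      (φ ^ i) (AdjoinSimple.gen F ζ) = AdjoinSimple.gen F ζ ^ H66.resCard q F ^ i := by
    intro i
    induction i with
    | zero => simp
    | succ i ih =>
      rw [pow_succ', AlgEquiv.mul_apply, ih, map_pow, hφ, ← pow_mul, ← pow_succ']
  have hord : orderOf φ = n := by
    have hle : orderOf φ ≤ n := hcard ▸ orderOf_le_card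
    have hpos : 0 < orderOf φ := orderOf_pos φ
    by_contra hne
    have hlt : orderOf φ < n := lt_of_le_of_ne hle hne
    have h1 := hpow (orderOf φ)
    rw [pow_orderOf_eq_one, AlgEquiv.one_apply] at h1
    have h2 : ζ ^ H66.resCard q F ^ 0 = ζ ^ H66.resCard q F ^ orderOf φ := by
      have h3 := congrArg (fun y : F⟮ζ⟯ => (y : PadicAlgCl q)) h1
      simpa using h3
    have h4 := pow_resCard_injOn q F hn hζ (Finset.mem_coe.2 (Finset.mem_range.2 hn))
      (Finset.mem_coe.2 (Finset.mem_range.2 hlt)) h2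
    omega
  exact isCyclic_of_orderOf_eq_card φ (hord.trans hcard.symm)

end Main

/-- **C3 leaf L2a** (`Fermat.Agent.S55.H66.LeafUnram`): `unramExt q F n` is unramified, Galois,
cyclic, of degree `n` over `F`. -/
theorem leafUnram : H66.LeafUnram q := by
  intro F _ _ _ _ _ n hn
  classical
  have hF0 : CharZero F := charZero_of_injective_algebraMap (algebraMap ℚ_[q] F).injective
  have hm := norm_natCast_resCard_pow_sub_one q F n hn
  have hm0 : H66.resCard q F ^ n - 1 ≠ 0 := by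
    intro h
    rw [h] at hm
    simp at hm
  have : NeZero ((H66.resCard q F ^ n - 1 : ℕ) : PadicAlgCl q) := ⟨by
    intro h
    rw [h, norm_zero] at hm
    exact zero_ne_one hm⟩
  obtain ⟨ζ, hζ⟩ :=
    HasEnoughRootsOfUnity.exists_primitiveRoot (PadicAlgCl q) (H66.resCard q F ^ n - 1)
  have hint : IsIntegral F ζ :=
    ⟨X ^ (H66.resCard q F ^ n - 1) - C 1, monic_X_pow_sub_C 1 hm0, by simp [hζ.pow_eq_one]⟩
  have hdeg := natDegree_minpoly_eq q F hn hζ
  have hmF : ((H66.resCard q F ^ n - 1 : ℕ) : F) ≠ 0 := Nat.cast_ne_zero.2 hm0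
  have hsepX : (X ^ (H66.resCard q F ^ n - 1) - C 1 : F[X]).Separable :=
    separable_X_pow_sub_C 1 hmF one_ne_zero
  have hL : H66.unramExt q F n = F⟮ζ⟯ := unramExt_eq_adjoin_simple q F hm0 hζ
  have hSF : (X ^ (H66.resCard q F ^ n - 1) - C 1 : F[X]).IsSplittingField F F⟮ζ⟯ := by
    rw [← hL, unramExt_eq_adjoin_rootSet q F hm0]
    exact IntermediateField.adjoin_rootSet_isSplittingField (IsAlgClosed.splits _)
  have hfin : FiniteDimensional F F⟮ζ⟯ :=
    IsSplittingField.finiteDimensional _ (X ^ (H66.resCard q F ^ n - 1) - C 1 : F[X])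
  have hgal : IsGalois F F⟮ζ⟯ := IsGalois.of_separable_splitting_field hsepX
  rw [hL]
  refine ⟨hfin, ?_, hgal, isCyclic_aut_adjoin q F hn hζ, ?_⟩
  · rw [IntermediateField.adjoin.finrank hint, hdeg]
  · refine isUnram_adjoin_simple q F hint (norm_eq_one_of_pow_eq_one hm0 hζ.pow_eq_one) ?_
    intro β β' hβ hβ' hne
    exact norm_sub_eq_one_of_pow_eq_one hm (pow_eq_one_of_aeval_minpoly q F hζ.pow_eq_one hβ)
      (pow_eq_one_of_aeval_minpoly q F hζ.pow_eq_one hβ') hne

end Fermat.Agent.S55.H28
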