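/-
Program C (S55), packages C3/C5/C8 (helper28): UNIT CLASSES HAVE TRIVIAL LOCAL INVARIANT IN
UNRAMIFIED EXTENSIONS.

For an unramified finite Galois extension `L / F` of embedded local fields and any morphism of
representations `f : A → Lˣ` (over a group homomorphism `g : Gal(L/F) → G`) with values in the
units of the valuation ring, the composite `H²(G, A) → H²(Gal(L/F), Lˣ) → ℚ/ℤ` with the invariant
is zero.  (Every class of `H²(Gal(L/F), A)` is a cyclic class `cycClass φ a` for the Frobenius
`φ`; its image is `cycClass φ (f a)` with `f a` a unit of `F`, of invariant `ord (f a) / n = 0`.)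
This is the local core of `H29.SData.UnitOutside` and of the finiteness of the set of places with
non-trivial local invariant.
-/
import Fermat.Agent.S55.H66.C3Main

set_option autoImplicit false

noncomputable section

namespace Fermat.Agent.S55.H28

open IntermediateField CategoryTheory groupCohomology

variable (q : ℕ) [Fact q.Prime]

section Local

variable (F : Type) [Field F] [Algebra ℚ_[q] F] [Algebra F (PadicAlgCl q)]
  [IsScalarTower ℚ_[q] F (PadicAlgCl q)] [FiniteDimensional ℚ_[q] F]
  (L : IntermediateField F (PadicAlgCl q)) [FiniteDimensional F L] [IsGalois F L]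

/-- In an unramified extension the invariant of the cyclic class of a unit of the base field
vanishes. -/
theorem inv_cycClass_baseUnit_eq_zero (hL : H66.IsUnram q F L) (φ : L ≃ₐ[F] L)
    (hφ : H66.IsFrob q L φ) (a : Fˣ) (ha : H66.nrm q (a : F) = 1) :
    H66.inv q L (H66.cycClass (Rep.ofAlgebraAutOnUnits F L) φ (H66.baseUnit L a)) = 0 := by
  rw [H66.c3_invUnr q F L hL φ hφ a]
  have hord : H66.ord q (a : F) = 0 := by
    apply H24.ord_eq_of_nrm_eq (H66.leafOrd q) a.ne_zero
    rw [ha, zpow_zero]
  rw [hord]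
  simp

/-- **Unit classes have trivial invariant in unramified extensions** (identity on the group). -/
theorem inv_eq_zero_of_unit_rep_id (hL : H66.IsUnram q F L)
    (A : Rep.{0, 0, 0} ℤ (L ≃ₐ[F] L)) (f : A ⟶ Rep.ofAlgebraAutOnUnits F L)
    (hf : ∀ a : A, H66.nrm q ((H24.toUnit L (f.hom a) : Lˣ) : L) = 1)
    (β : groupCohomology A 2) :
    H66.inv q L ((groupCohomology.map (MonoidHom.id (L ≃ₐ[F] L)) f 2).hom β) = 0 := by
  obtain ⟨φ, hφ, -, hgen⟩ := H66.c3_frob q F L hL
  obtain ⟨a, ha, rfl⟩ := H37.leafCycSurj ℤ (L ≃ₐ[F] L) A φ hgen β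
  have h1 := H80.leafCycRes ℤ (L ≃ₐ[F] L) (L ≃ₐ[F] L) A (Rep.ofAlgebraAutOnUnits F L)
    (MonoidHom.id _) f φ φ 1 hgen hgen Function.injective_id (by simp) (by simp) a ha
  rw [h1]
  have hinv : ∀ g : L ≃ₐ[F] L, (Rep.ofAlgebraAutOnUnits F L).ρ g (f.hom a) = f.hom a := by
    intro g
    have h2 := Rep.hom_comm_apply f g a
    rw [ha g] at h2
    exact h2.symm
  obtain ⟨u, hu⟩ := H24.exists_baseUnit_of_invariant L (f.hom a) hinv
  rw [← hu]
  apply inv_cycClass_baseUnit_eq_zero q F L hL φ hφ u
  have h3 := hf a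
  rw [← hu, H24.toUnit_baseUnit] at h3
  exact h3


/-- **Unit classes have trivial invariant in unramified extensions.**  `L / F` unramified Galois,
`A` a representation of a group `G`, `g : Gal(L/F) → G`, `f : A → Lˣ` a morphism over `g` with
values in the units of the valuation ring: the image of `H²(G, A)` in `H²(Gal(L/F), Lˣ)` has
trivial invariant. -/
theorem inv_eq_zero_of_unit_rep (hL : H66.IsUnram q F L) {G : Type} [Group G]
    (A : Rep.{0, 0, 0} ℤ G) (g : (L ≃ₐ[F] L) →* G)
    (f : Rep.res g A ⟶ Rep.ofAlgebraAutOnUnits F L)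
    (hf : ∀ a : Rep.res g A, H66.nrm q ((H24.toUnit L (f.hom a) : Lˣ) : L) = 1)
    (β : groupCohomology A 2) :
    H66.inv q L ((groupCohomology.map g f 2).hom β) = 0 := by
  have key : groupCohomology.map g f 2 =
      groupCohomology.map g (𝟙 (Rep.res g A)) 2 ≫
        groupCohomology.map (MonoidHom.id (L ≃ₐ[F] L)) f 2 := by
    rw [← groupCohomology.map_comp g (MonoidHom.id (L ≃ₐ[F] L)) (𝟙 (Rep.res g A)) f 2]
    exact groupCohomology.map_congr rfl rfl 2
  rw [key]
  exact inv_eq_zero_of_unit_rep_id q F L hL (Rep.res g A) f hf _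

end Local

end Fermat.Agent.S55.H28
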