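/-
Program C (S55), package C5 (semi-local objects in the embedding model, designer helper88),
leaf D3 `AlmostAllUnramifiedStatement` (helper28): for a number field `K` and a subfield `k`,
almost all rational primes `q` are unramified in `K / k`, i.e. for every embedding
`τ : K → Ω = PadicAlgCl q` the completion `ℚ_q(τ K)` has no new norms over `ℚ_q(τ k)`.

Proof.  Let `θ` be an integral primitive element of `K / ℚ`, `f = minpoly ℤ θ` and
`A f + B f' = d ≠ 0` a Bezout identity in `ℤ[X]`.  For `q ∤ d` the roots of `f` in `Ω` are pairwise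
at distance `1` (binomial expansion in the valuation ring of `Ω`), and `ℚ_q(τ K) = k_v(τ θ)` is
unramified over `k_v = ℚ_q(τ k)` by the Vandermonde max-norm argument.
-/
import Mathlib
import Fermat.Agent.S55.H28.Unram
import Fermat.Agent.S55.H88.SemiLocalSpec

set_option autoImplicit false

noncomputable section

namespace Fermat.Agent.S55.H28

open IntermediateField Polynomial

variable (q : ℕ) [Fact q.Prime]

/-! ### Integral elements of `Ω` -/

/-- An element of `Ω` integral over `ℤ` has norm at most `1`. -/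
theorem norm_le_one_of_isIntegral_int {x : PadicAlgCl q} (hx : IsIntegral ℤ x) : ‖x‖ ≤ 1 := by
  have h1 : IsIntegral (OΩ q) x := hx.tower_top
  obtain ⟨y, hy⟩ := IsIntegrallyClosed.isIntegral_iff.1 h1
  rw [← hy]
  exact (mem_OΩ q).1 y.2

/-- Bezout identity over `ℤ` for a polynomial which is separable over `ℚ`. -/
theorem exists_bezout_int {f : ℤ[X]} (hsep : (f.map (Int.castRingHom ℚ)).Separable) :
    ∃ (A B : ℤ[X]) (d : ℤ), d ≠ 0 ∧ A * f + B * derivative f = C d := by
  obtain ⟨a, b, hab⟩ := hsep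
  obtain ⟨d₁, hd₁, h₁⟩ := IsLocalization.integerNormalization_spec (nonZeroDivisors ℤ) a
  obtain ⟨d₂, hd₂, h₂⟩ := IsLocalization.integerNormalization_spec (nonZeroDivisors ℤ) b
  refine ⟨C d₂ * IsLocalization.integerNormalization (nonZeroDivisors ℤ) a,
    C d₁ * IsLocalization.integerNormalization (nonZeroDivisors ℤ) b, d₁ * d₂,
    mul_ne_zero (nonZeroDivisors.ne_zero hd₁) (nonZeroDivisors.ne_zero hd₂), ?_⟩
  apply Polynomial.map_injective (Int.castRingHom ℚ) Int.cast_injective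
  have e : algebraMap ℤ ℚ = Int.castRingHom ℚ := rfl
  rw [e] at h₁ h₂
  rw [Polynomial.map_add, Polynomial.map_mul, Polynomial.map_mul, Polynomial.map_mul,
    Polynomial.map_mul, h₁, h₂, ← derivative_map, map_C, map_C, map_C]
  rw [zsmul_eq_mul, zsmul_eq_mul]
  have h3 : ((d₁ : ℤ) : ℚ[X]) = C ((d₁ : ℤ) : ℚ) := (map_intCast (C : ℚ →+* ℚ[X]) d₁).symm
  have h4 : ((d₂ : ℤ) : ℚ[X]) = C ((d₂ : ℤ) : ℚ) := (map_intCast (C : ℚ →+* ℚ[X]) d₂).symm
  rw [h3, h4]
  have h5 : (Int.castRingHom ℚ) (d₁ * d₂) = ((d₁ : ℤ) : ℚ) * ((d₂ : ℤ) : ℚ) := by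
    simp
  rw [h5, C_mul]
  simp only [eq_intCast]
  linear_combination (C ((d₁ : ℤ) : ℚ) * C ((d₂ : ℤ) : ℚ)) * hab


/-- If `A f + B f' = d` in `ℤ[X]` with `f` monic and `|d|_q = 1`, then distinct roots of `f` in `Ω`
are at distance `1`. -/
theorem norm_sub_eq_one_of_bezout {f A B : ℤ[X]} {d : ℤ} (hf : f.Monic)
    (hbez : A * f + B * derivative f = C d) (hd : ‖((d : ℤ) : PadicAlgCl q)‖ = 1)
    {ρ ρ' : PadicAlgCl q} (hρ : aeval ρ f = 0) (hρ' : aeval ρ' f = 0) (hne : ρ ≠ ρ') :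
    ‖ρ - ρ'‖ = 1 := by
  have hρn : ‖ρ‖ ≤ 1 := norm_le_one_of_isIntegral_int q ⟨f, hf, hρ⟩
  have hρ'n : ‖ρ'‖ ≤ 1 := norm_le_one_of_isIntegral_int q ⟨f, hf, hρ'⟩
  obtain ⟨ρO, hρO⟩ : ∃ ρO : OΩ q, (ρO : PadicAlgCl q) = ρ := ⟨⟨ρ, (mem_OΩ q).2 hρn⟩, rfl⟩
  obtain ⟨ρO', hρO'⟩ : ∃ ρO' : OΩ q, (ρO' : PadicAlgCl q) = ρ' := ⟨⟨ρ', (mem_OΩ q).2 hρ'n⟩, rfl⟩
  have hcomp : (OΩ q).subtype.comp (Int.castRingHom (OΩ q)) = algebraMap ℤ (PadicAlgCl q) :=
    RingHom.ext_int _ _
  have hev : ∀ (g : ℤ[X]) (x : OΩ q),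
      ((eval₂ (Int.castRingHom (OΩ q)) x g : OΩ q) : PadicAlgCl q) =
        aeval (x : PadicAlgCl q) g := by
    intro g x
    rw [aeval_def, ← hcomp]
    exact hom_eval₂ g (Int.castRingHom (OΩ q)) (OΩ q).subtype x
  have h0 : eval₂ (Int.castRingHom (OΩ q)) ρO f = 0 := by
    apply Subtype.ext
    rw [hev, hρO, hρ]
    rfl
  have h0' : eval₂ (Int.castRingHom (OΩ q)) ρO' f = 0 := by
    apply Subtype.ext
    rw [hev, hρO', hρ']
    rfl
  -- the derivative at `ρ` is a unit
  have hbez' := congrArg (eval₂ (Int.castRingHom (OΩ q)) ρO) hbez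
  rw [eval₂_add, eval₂_mul, eval₂_mul, h0, mul_zero, zero_add, eval₂_C] at hbez'
  have hD : ‖((eval₂ (Int.castRingHom (OΩ q)) ρO (derivative f) : OΩ q) : PadicAlgCl q)‖ = 1 := by
    have h1 := congrArg (fun z : OΩ q => ‖(z : PadicAlgCl q)‖) hbez'
    simp only [MulMemClass.coe_mul, norm_mul] at h1
    have h2 : ‖(((Int.castRingHom (OΩ q)) d : OΩ q) : PadicAlgCl q)‖ = 1 := by
      have h3 : (((Int.castRingHom (OΩ q)) d : OΩ q) : PadicAlgCl q) = ((d : ℤ) : PadicAlgCl q) := by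
        simp
      rw [h3]
      exact hd
    rw [h2] at h1
    have hB : ‖((eval₂ (Int.castRingHom (OΩ q)) ρO B : OΩ q) : PadicAlgCl q)‖ ≤ 1 :=
      (mem_OΩ q).1 (eval₂ (Int.castRingHom (OΩ q)) ρO B).2
    have hD' : ‖((eval₂ (Int.castRingHom (OΩ q)) ρO (derivative f) : OΩ q) : PadicAlgCl q)‖ ≤ 1 :=
      (mem_OΩ q).1 (eval₂ (Int.castRingHom (OΩ q)) ρO (derivative f)).2
    nlinarith [norm_nonneg ((eval₂ (Int.castRingHom (OΩ q)) ρO B : OΩ q) : PadicAlgCl q),
      norm_nonneg ((eval₂ (Int.castRingHom (OΩ q)) ρO (derivative f) : OΩ q) : PadicAlgCl q)]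
  -- binomial expansion
  obtain ⟨k, hk⟩ := (f.map (Int.castRingHom (OΩ q))).binomExpansion ρO (ρO' - ρO)
  rw [add_sub_cancel, eval_map, eval_map, derivative_map, eval_map, h0, h0', zero_add] at hk
  have hy0 : ρO' - ρO ≠ 0 := by
    intro h
    apply hne
    rw [← hρO, ← hρO', sub_eq_zero.1 h]
  have hk' : eval₂ (Int.castRingHom (OΩ q)) ρO (derivative f) = -(k * (ρO' - ρO)) := by
    have h1 : (ρO' - ρO) * (eval₂ (Int.castRingHom (OΩ q)) ρO (derivative f) + k * (ρO' - ρO)) = 0 := by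
      rw [hk]
      ring
    have h2 := (mul_eq_zero.1 h1).resolve_left hy0
    exact eq_neg_of_add_eq_zero_left h2
  have hle : (1 : ℝ) ≤ ‖ρ' - ρ‖ := by
    have h1 := congrArg (fun z : OΩ q => ‖(z : PadicAlgCl q)‖) hk'
    simp only [NegMemClass.coe_neg, norm_neg, MulMemClass.coe_mul, norm_mul,
      AddSubgroupClass.coe_sub] at h1
    rw [hD, hρO, hρO'] at h1
    have hkn : ‖(k : PadicAlgCl q)‖ ≤ 1 := (mem_OΩ q).1 k.2
    nlinarith [norm_nonneg (k : PadicAlgCl q), norm_nonneg (ρ' - ρ)]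
  have hge : ‖ρ' - ρ‖ ≤ 1 := by
    calc ‖ρ' - ρ‖ = ‖ρ' + -ρ‖ := by rw [sub_eq_add_neg]
      _ ≤ max ‖ρ'‖ ‖-ρ‖ := IsUltrametricDist.norm_add_le_max _ _
      _ ≤ 1 := by
        rw [norm_neg]
        exact max_le hρ'n hρn
  rw [norm_sub_rev]
  exact le_antisymm hge hle


/-! ### The Vandermonde argument for integers -/

section Vandermonde

variable (F : Type) [Field F] [Algebra ℚ_[q] F] [Algebra F (PadicAlgCl q)]
  [IsScalarTower ℚ_[q] F (PadicAlgCl q)]

/-- A simple extension `F⟮α⟯` generated by an integer `α` whose conjugates are pairwise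
incongruent modulo the maximal ideal is unramified (Vandermonde argument; version of
`isUnram_adjoin_simple` for `‖α‖ ≤ 1`). -/
theorem isUnram_adjoin_simple_of_le {α : PadicAlgCl q} (hint : IsIntegral F α) (hαn : ‖α‖ ≤ 1)
    (hdiff : ∀ β β' : PadicAlgCl q, aeval β (minpoly F α) = 0 → aeval β' (minpoly F α) = 0 →
      β ≠ β' → ‖β - β'‖ = 1) :
    H66.IsUnram q F F⟮α⟯ := by
  intro x
  classical
  have hF0 : CharZero F := charZero_of_injective_algebraMap (algebraMap ℚ_[q] F).injective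
  have hsep : IsSeparable F α := (minpoly.irreducible hint).separable
  have hsplit : ((minpoly F α).map (algebraMap F (PadicAlgCl q))).Splits := IsAlgClosed.splits _
  let pb := IntermediateField.adjoin.powerBasis hint
  have hdim : pb.dim = (minpoly F α).natDegree := IntermediateField.adjoin.powerBasis_dim hint
  have hgen : pb.gen = AdjoinSimple.gen F α := IntermediateField.adjoin.powerBasis_gen hint
  have hcard : Nat.card (F⟮α⟯ →ₐ[F] PadicAlgCl q) = pb.dim := by
    rw [hdim]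
    exact IntermediateField.card_algHom_adjoin_integral F hint hsep hsplit
  have hdpos : 0 < pb.dim := by
    rw [hdim]
    exact minpoly.natDegree_pos hint
  have : Finite (F⟮α⟯ →ₐ[F] PadicAlgCl q) := Nat.finite_of_card_ne_zero (by omega)
  let e : Fin pb.dim ≃ (F⟮α⟯ →ₐ[F] PadicAlgCl q) := (Finite.equivFinOfCardEq hcard).symm
  let c : Fin pb.dim → PadicAlgCl q := fun i => algebraMap F (PadicAlgCl q) (pb.basis.repr x i)
  let β : Fin pb.dim → PadicAlgCl q := fun j => e j pb.gen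
  have hexp : ∀ τ : F⟮α⟯ →ₐ[F] PadicAlgCl q, τ x = ∑ i, c i * τ pb.gen ^ (i : ℕ) := by
    intro τ
    conv_lhs => rw [← pb.basis.sum_repr x]
    rw [map_sum]
    refine Finset.sum_congr rfl fun i _ => ?_
    rw [Algebra.smul_def, map_mul, AlgHom.commutes, pb.basis_eq_pow, map_pow]
  have hβroot : ∀ j, aeval (β j) (minpoly F α) = 0 := by
    intro j
    show aeval (e j pb.gen) (minpoly F α) = 0
    rw [aeval_algHom_apply, hgen]
    have h0 : aeval (AdjoinSimple.gen F α) (minpoly F α) = 0 := by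
      rw [← minpoly_gen F α]
      exact minpoly.aeval F _
    rw [h0, map_zero]
  have hβn : ∀ j, ‖β j‖ ≤ 1 := by
    intro j
    show ‖e j pb.gen‖ ≤ 1
    rw [H53.norm_algHom q F⟮α⟯ (e j) pb.gen, hgen, AdjoinSimple.coe_gen]
    exact hαn
  have hβinj : Function.Injective β := by
    intro j j' h
    apply e.injective
    exact pb.algHom_ext h
  let V : Matrix (Fin pb.dim) (Fin pb.dim) (PadicAlgCl q) := Matrix.vandermonde β
  have hVent : ∀ j i, ‖V j i‖ ≤ 1 := by
    intro j i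
    show ‖β j ^ (i : ℕ)‖ ≤ 1
    rw [norm_pow]
    exact pow_le_one₀ (norm_nonneg _) (hβn j)
  have hVdet : ‖V.det‖ = 1 := by
    show ‖(Matrix.vandermonde β).det‖ = 1
    rw [Matrix.det_vandermonde, norm_prod]
    refine Finset.prod_eq_one fun i _ => ?_
    rw [norm_prod]
    refine Finset.prod_eq_one fun j hj => ?_
    refine hdiff _ _ (hβroot j) (hβroot i) ?_
    intro h
    have := hβinj h
    rw [Finset.mem_Ioi] at hj
    exact (ne_of_gt hj) this
  have hVc : ∀ j, (V.mulVec c) j = e j x := by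
    intro j
    rw [hexp (e j)]
    show ∑ i, V j i * c i = _
    refine Finset.sum_congr rfl fun i _ => ?_
    show β j ^ (i : ℕ) * c i = c i * (e j pb.gen) ^ (i : ℕ)
    rw [mul_comm]
  have hadj : V.adjugate.mulVec (V.mulVec c) = V.det • c := by
    rw [Matrix.mulVec_mulVec, Matrix.adjugate_mul, Matrix.smul_mulVec, Matrix.one_mulVec]
  have hcle : ∀ i, ‖c i‖ ≤ ‖(x : PadicAlgCl q)‖ := by
    intro i
    have h := congrFun hadj i
    have h' : V.det * c i = ∑ j, V.adjugate i j * e j x := by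
      rw [← smul_eq_mul, ← Pi.smul_apply, ← h]
      show ∑ j, V.adjugate i j * (V.mulVec c) j = _
      refine Finset.sum_congr rfl fun j _ => ?_
      rw [hVc j]
    have h2 : ‖V.det * c i‖ ≤ ‖(x : PadicAlgCl q)‖ := by
      rw [h']
      refine IsUltrametricDist.norm_sum_le_of_forall_le_of_nonneg (norm_nonneg _) fun j _ => ?_
      rw [norm_mul, H53.norm_algHom q F⟮α⟯ (e j) x]
      exact mul_le_of_le_one_left (norm_nonneg _) (H53.norm_adjugate_le q V hVent i j)
    rwa [norm_mul, hVdet, one_mul] at h2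
  obtain ⟨i₀, -, hi₀⟩ := Finset.exists_max_image Finset.univ (fun i => ‖c i‖)
    ⟨⟨0, hdpos⟩, Finset.mem_univ _⟩
  have hxle : ‖(x : PadicAlgCl q)‖ ≤ ‖c i₀‖ := by
    have h := hexp (F⟮α⟯.val)
    have hv : (F⟮α⟯.val) x = (x : PadicAlgCl q) := rfl
    have hg : (F⟮α⟯.val) pb.gen = α := by
      rw [hgen]
      exact AdjoinSimple.coe_gen F α
    rw [hv, hg] at h
    rw [h]
    refine IsUltrametricDist.norm_sum_le_of_forall_le_of_nonneg (norm_nonneg _) fun i _ => ?_
    rw [norm_mul, norm_pow]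
    exact (mul_le_of_le_one_right (norm_nonneg _) (pow_le_one₀ (norm_nonneg _) hαn)).trans
      (hi₀ i (Finset.mem_univ _))
  exact ⟨pb.basis.repr x i₀, le_antisymm hxle (hcle i₀)⟩

end Vandermonde


/-! ### Almost all primes are unramified -/

section Global

/-- An integral primitive element of a number field. -/
theorem exists_integral_primitive (K : Type) [Field K] [NumberField K] :
    ∃ θ : K, IsIntegral ℤ θ ∧ ℚ⟮θ⟯ = ⊤ := by
  obtain ⟨α, hα⟩ := Field.exists_primitive_element ℚ K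
  have halg : IsAlgebraic ℤ α :=
    (IsFractionRing.isAlgebraic_iff ℤ ℚ K).2 (Algebra.IsAlgebraic.isAlgebraic α)
  obtain ⟨n, hn0, hint⟩ := halg.exists_integral_multiple
  refine ⟨n • α, hint, ?_⟩
  rw [eq_top_iff, ← hα, IntermediateField.adjoin_simple_le_iff]
  have hmem : n • α ∈ ℚ⟮n • α⟯ := mem_adjoin_simple_self ℚ _
  have h2 : α = ((n : ℚ)⁻¹) • (n • α) := by
    rw [← Int.cast_smul_eq_zsmul ℚ n α, smul_smul, inv_mul_cancel₀ (Int.cast_ne_zero.2 hn0),
      one_smul]
  have h3 : ((n : ℚ)⁻¹) • (n • α) ∈ ℚ⟮n • α⟯ := IntermediateField.smul_mem _ hmem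
  rwa [← h2] at h3

variable (k K : Type) [Field k] [Field K] [NumberField K] [Algebra k K]

/-- There is a nonzero integer `d` such that `K / k` is unramified at every prime not dividing
`d` (in the sense of `H88.IsUnramifiedAt`). -/
theorem exists_int_forall_isUnramifiedAt :
    ∃ d : ℤ, d ≠ 0 ∧ ∀ (q : ℕ) [Fact q.Prime], ¬ (q : ℤ) ∣ d → H88.IsUnramifiedAt q k K := by
  obtain ⟨θ, hθ, htop⟩ := exists_integral_primitive K
  have hmin : (minpoly ℤ θ).map (Int.castRingHom ℚ) = minpoly ℚ θ :=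
    (minpoly.isIntegrallyClosed_eq_field_fractions' ℚ hθ).symm
  have hsep : ((minpoly ℤ θ).map (Int.castRingHom ℚ)).Separable := by
    rw [hmin]
    exact (minpoly.irreducible hθ.tower_top).separable
  obtain ⟨A, B, d, hd, hbez⟩ := exists_bezout_int hsep
  refine ⟨d, hd, ?_⟩
  intro q _ hq τ x hx
  have hβint : IsIntegral ℤ (τ θ) := hθ.map τ.toIntAlgHom
  have hfβ : aeval (τ θ) (minpoly ℤ θ) = 0 := by
    have h := aeval_algHom_apply τ.toIntAlgHom θ (minpoly ℤ θ)
    rw [minpoly.aeval, map_zero] at h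
    exact h
  have hd1 : ‖((d : ℤ) : PadicAlgCl q)‖ = 1 := by
    have h : ((d : ℤ) : PadicAlgCl q) = algebraMap ℚ_[q] (PadicAlgCl q) ((d : ℤ) : ℚ_[q]) := by
      simp
    rw [h, PadicAlgCl.norm_extends q]
    exact le_antisymm (Padic.norm_int_le_one d)
      (not_lt.1 fun hlt => hq (Padic.norm_intCast_lt_one_iff.1 hlt))
  have hβF : IsIntegral (H88.locField q (τ.comp (algebraMap k K))) (τ θ) := hβint.tower_top
  have hroots : ∀ ρ : PadicAlgCl q,
      aeval ρ (minpoly (H88.locField q (τ.comp (algebraMap k K))) (τ θ)) = 0 →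
        aeval ρ (minpoly ℤ θ) = 0 := by
    intro ρ hρ
    have hdvd : minpoly (H88.locField q (τ.comp (algebraMap k K))) (τ θ) ∣
        (minpoly ℤ θ).map (algebraMap ℤ (H88.locField q (τ.comp (algebraMap k K)))) :=
      minpoly.dvd _ _ (by rw [aeval_map_algebraMap]; exact hfβ)
    have h := aeval_eq_zero_of_dvd_aeval_eq_zero hdvd hρ
    rwa [aeval_map_algebraMap] at h
  have hun : H66.IsUnram q (H88.locField q (τ.comp (algebraMap k K)))
      (H88.locField q (τ.comp (algebraMap k K)))⟮τ θ⟯ :=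
    isUnram_adjoin_simple_of_le q _ hβF (norm_le_one_of_isIntegral_int q hβint)
      (fun ρ ρ' h h' hne => norm_sub_eq_one_of_bezout q (minpoly.monic hθ) hbez hd1
        (hroots ρ h) (hroots ρ' h') hne)
  have hall : ∀ y : K, τ y ∈ (H88.locField q (τ.comp (algebraMap k K)))⟮τ θ⟯ := by
    let S : Subfield K :=
      ((H88.locField q (τ.comp (algebraMap k K)))⟮τ θ⟯.toSubfield).comap τ
    let S' : IntermediateField ℚ K := S.toIntermediateField (fun r => by
      rw [eq_ratCast]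
      exact SubfieldClass.ratCast_mem S r)
    have hθS : θ ∈ S' := by
      show τ θ ∈ (H88.locField q (τ.comp (algebraMap k K)))⟮τ θ⟯
      exact mem_adjoin_simple_self _ _
    have hle : ℚ⟮θ⟯ ≤ S' := adjoin_simple_le_iff.2 hθS
    intro y
    have hy : y ∈ S' := hle (htop ▸ IntermediateField.mem_top)
    exact hy
  have hmem : x ∈ (H88.locField q (τ.comp (algebraMap k K)))⟮τ θ⟯ := by
    have hle : H88.locField q τ ≤
        ((H88.locField q (τ.comp (algebraMap k K)))⟮τ θ⟯).restrictScalars ℚ_[q] := by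
      rw [H88.locField, IntermediateField.adjoin_le_iff]
      rintro _ ⟨y, rfl⟩
      exact hall y
    exact hle hx
  obtain ⟨y, hy⟩ := hun ⟨x, hmem⟩
  exact ⟨(y : PadicAlgCl q), y.2, hy⟩

/-- **C5 leaf D3** (`Fermat.Agent.S55.H88.AlmostAllUnramifiedStatement`): almost all primes are
unramified in `K / k`. -/
theorem almostAllUnramifiedStatement : H88.AlmostAllUnramifiedStatement k K := by
  obtain ⟨d, hd, h⟩ := exists_int_forall_isUnramifiedAt k K
  have hfin : {q : Nat.Primes | (q : ℕ) ∣ d.natAbs}.Finite := by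
    have h1 : {n : ℕ | n ∣ d.natAbs}.Finite :=
      Set.Finite.subset (Finset.finite_toSet (Finset.range (d.natAbs + 1)))
        (fun n hn => Finset.mem_coe.2 (Finset.mem_range.2
          (Nat.lt_succ_of_le (Nat.le_of_dvd (Int.natAbs_pos.2 hd) hn))))
    exact Set.Finite.preimage (f := fun q : Nat.Primes => (q : ℕ))
      (Nat.Primes.coe_nat_injective.injOn) h1
  refine hfin.subset ?_
  intro q hq
  by_contra hnd
  exact hq (@h (q : ℕ) (H88.factOfPrimes q) (fun hdvd => hnd (Int.natCast_dvd.1 hdvd)))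

end Global

end Fermat.Agent.S55.H28
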