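/-
Program C (S55), packages C5/C8 (helper28): LOCAL INVARIANTS OF UNIT CLASSES, GLOBAL FORM, on the
terms of `H88/LayerDefs.lean`.

* `linvAt_eq_zero_of_units` — generic core of `H29.SData.UnitOutside`: if `q` is unramified in
  `K / k` and `u : A → Kˣ` is a morphism of `Gal(K/k)`-representations whose values are units at
  the place of `τ'`, then `linvAt q k τ'` vanishes on the image of `H²(Gal(K/k), A)`.
* `linv_finite` — (LINV-FIN): a class of `H²(Gal(K/k), Kˣ)` has trivial local invariant at all
  but finitely many finite places of `k` (a cocycle has finitely many values, each a unit above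
  almost all primes; almost all primes are unramified).
* `unitsOutsideRep k K T`, `unitsOutsideIncl`, `exists_unitsOutside_class` — the sub-representation
  of `Kˣ` of elements which are units above all primes outside `T`; every class comes from one with
  `T` finite.
-/
import Fermat.Agent.S55.H28.UnitInv
import Fermat.Agent.S55.H28.AlmostUnram
import Fermat.Agent.S55.H88.LayerDefs

set_option autoImplicit false

noncomputable section

namespace Fermat.Agent.S55.H28

open IntermediateField CategoryTheory groupCohomology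

attribute [local instance] H88.factOfPrimes

/-! ### The local extension at an embedding -/

section LocalInstances

variable (q : ℕ) [Fact q.Prime] (k : Type) {K : Type} [Field k] [Field K] [Algebra k K]
  (τ' : K →+* PadicAlgCl q)

/-- `K_w / k_v` is finite for a number field `K`. -/
theorem finiteDimensional_locExt [NumberField K] :
    FiniteDimensional (H88.locBase q k τ') (H88.locExt q k τ') := by
  let e : ↥(H88.locField q τ') →ₗ[ℚ_[q]] ↥(H88.locExt q k τ') :=
    { toFun := fun y => ⟨y.1, y.2⟩
      map_add' := fun _ _ => rfl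
      map_smul' := fun _ _ => rfl }
  have h2 : Module.Finite ℚ_[q] (H88.locExt q k τ') :=
    Module.Finite.of_surjective e (fun y => ⟨⟨y.1, y.2⟩, rfl⟩)
  exact Module.Finite.of_restrictScalars_finite ℚ_[q] _ _

/-- `K_w / k_v` is unramified (in the sense of C3) when `q` is unramified in `K / k`. -/
theorem isUnram_locExt (hunr : H88.IsUnramifiedAt q k K) :
    H66.IsUnram q (H88.locBase q k τ') (H88.locExt q k τ') := by
  intro x
  obtain ⟨y, hy, hxy⟩ := hunr τ' (x : PadicAlgCl q) x.2
  exact ⟨⟨y, hy⟩, hxy⟩

end LocalInstances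

/-! ### Unit classes have trivial local invariants at unramified places -/

section Global

variable (q : ℕ) [Fact q.Prime] (k K : Type) [Field k] [Field K] [NumberField k] [NumberField K]
  [Algebra k K] [Normal k K] (τ' : K →+* PadicAlgCl q)

/-- **Generic core of `H29.SData.UnitOutside`.**  If `q` is unramified in `K / k` and
`u : A → Kˣ` is a morphism of representations of `Gal(K/k)` whose values are units at the place
of `τ'`, then the classes in the image of `H²(Gal(K/k), A)` have trivial local invariant at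
`τ'`. -/
theorem linvAt_eq_zero_of_units (hunr : H88.IsUnramifiedAt q k K)
    (A : Rep.{0, 0, 0} ℤ (K ≃ₐ[k] K)) (u : A ⟶ Rep.ofAlgebraAutOnUnits k K)
    (hu : ∀ a : A, ‖τ' ((Additive.toMul (Rep.toAdditive (u.hom a)) : Kˣ) : K)‖ = 1)
    (β : groupCohomology A 2) :
    H88.linvAt q k τ' (H29.mapH2 u β) = 0 := by
  haveI := finiteDimensional_locExt q k τ'
  haveI : IsGalois (H88.locBase q k τ') (H88.locExt q k τ') := ⟨⟩
  have key : groupCohomology.map (MonoidHom.id (K ≃ₐ[k] K)) u 2 ≫
      groupCohomology.map (H88.locGalToGlobal q k τ') (H88.globalToLocUnits q k τ') 2 =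
      groupCohomology.map (H88.locGalToGlobal q k τ')
        ((Rep.resFunctor (H88.locGalToGlobal q k τ')).map u ≫ H88.globalToLocUnits q k τ') 2 := by
    rw [← groupCohomology.map_comp (MonoidHom.id (K ≃ₐ[k] K)) (H88.locGalToGlobal q k τ') u
      (H88.globalToLocUnits q k τ') 2]
    exact groupCohomology.map_congr rfl rfl 2
  have h2 : H88.linvAt q k τ' (H29.mapH2 u β) =
      H66.inv q (H88.locExt q k τ')
        ((groupCohomology.map (H88.locGalToGlobal q k τ')
          ((Rep.resFunctor (H88.locGalToGlobal q k τ')).map u ≫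
            H88.globalToLocUnits q k τ') 2).hom β) := by
    rw [← key]
    rfl
  rw [h2]
  refine inv_eq_zero_of_unit_rep q _ _ (isUnram_locExt q k τ' hunr) A _ _ ?_ β
  intro a
  exact hu a

end Global


/-! ### Finiteness of the set of places with non-trivial invariant -/

section Finite

variable (k K : Type) [Field k] [Field K] [Algebra k K]

/-- The elements of `Kˣ` which are units at all places above the primes outside `T`. -/
def unitsOutside (T : Set Nat.Primes) : Subgroup Kˣ where
  carrier := {u | ∀ q : Nat.Primes, q ∉ T → ∀ τ : K →+* PadicAlgCl (q : ℕ), ‖τ (u : K)‖ = 1}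
  one_mem' := by
    intro q _ τ
    simp
  mul_mem' := by
    intro a b ha hb q hq τ
    rw [Units.val_mul, map_mul, norm_mul, ha q hq τ, hb q hq τ, one_mul]
  inv_mem' := by
    intro a ha q hq τ
    rw [Units.val_inv_eq_inv_val, map_inv₀, norm_inv, ha q hq τ, inv_one]

/-- The corresponding submodule of the Galois module `Kˣ`. -/
def unitsOutsideSub (T : Set Nat.Primes) : Submodule ℤ (Rep.ofAlgebraAutOnUnits k K) :=
  (AddSubgroup.toIntSubmodule (Subgroup.toAddSubgroup (unitsOutside K T)) :
    Submodule ℤ (Additive Kˣ))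

theorem mem_unitsOutsideSub {T : Set Nat.Primes} {x : Rep.ofAlgebraAutOnUnits k K} :
    x ∈ unitsOutsideSub k K T ↔ ∀ q : Nat.Primes, q ∉ T → ∀ τ : K →+* PadicAlgCl (q : ℕ),
      ‖τ ((Additive.toMul (Rep.toAdditive x) : Kˣ) : K)‖ = 1 := Iff.rfl

theorem unitsOutsideSub_le_comap (T : Set Nat.Primes) (g : K ≃ₐ[k] K) :
    unitsOutsideSub k K T ≤
      (unitsOutsideSub k K T).comap ((Rep.ofAlgebraAutOnUnits k K).ρ g) := by
  intro x hx q hq τ
  exact hx q hq (τ.comp ((g : K ≃+* K) : K →+* K))

/-- The representation of `Gal(K/k)` on the units outside `T`. -/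
def unitsOutsideRep (T : Set Nat.Primes) : Rep.{0, 0, 0} ℤ (K ≃ₐ[k] K) :=
  Rep.subrepresentation (Rep.ofAlgebraAutOnUnits k K) (unitsOutsideSub k K T)
    (unitsOutsideSub_le_comap k K T)

/-- Its inclusion into `Kˣ`. -/
def unitsOutsideIncl (T : Set Nat.Primes) :
    unitsOutsideRep k K T ⟶ Rep.ofAlgebraAutOnUnits k K :=
  Rep.subtype (Rep.ofAlgebraAutOnUnits k K) (unitsOutsideSub k K T)
    (unitsOutsideSub_le_comap k K T)

variable [NumberField K]

/-- Every class of `H²(Gal(K/k), Kˣ)` comes from the units outside a finite set of primes. -/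
theorem exists_unitsOutside_class [Finite (K ≃ₐ[k] K)]
    (α : groupCohomology (Rep.ofAlgebraAutOnUnits k K) 2) :
    ∃ T : Set Nat.Primes, T.Finite ∧ ∃ β : groupCohomology (unitsOutsideRep k K T) 2,
      H29.mapH2 (unitsOutsideIncl k K T) β = α := by
  induction α using H2_induction_on with
  | h c =>
    let T : Set Nat.Primes := ⋃ x : (K ≃ₐ[k] K) × (K ≃ₐ[k] K),
      {q : Nat.Primes | ∃ τ : K →+* PadicAlgCl (q : ℕ),
        ‖τ ((Additive.toMul (Rep.toAdditive (c x)) : Kˣ) : K)‖ ≠ 1}
    have hT : T.Finite := Set.finite_iUnion fun x =>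
      H88.finite_setOf_exists_norm_ne_one _ (Units.ne_zero _)
    have hmem : ∀ x, c x ∈ unitsOutsideSub k K T := by
      intro x
      rw [mem_unitsOutsideSub]
      intro q hq τ
      by_contra hne
      exact hq (Set.mem_iUnion.2 ⟨x, τ, hne⟩)
    let c' : (K ≃ₐ[k] K) × (K ≃ₐ[k] K) → unitsOutsideRep k K T := fun x => ⟨c x, hmem x⟩
    have hc' : c' ∈ cocycles₂ (unitsOutsideRep k K T) := by
      rw [mem_cocycles₂_iff]
      intro g h j
      apply Subtype.ext
      exact (mem_cocycles₂_iff (A := Rep.ofAlgebraAutOnUnits k K) c).1 c.2 g h j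
    refine ⟨T, hT, (H2π (unitsOutsideRep k K T)).hom ⟨c', hc'⟩, ?_⟩
    have h1 := H2π_comp_map_apply (MonoidHom.id (K ≃ₐ[k] K)) (unitsOutsideIncl k K T) ⟨c', hc'⟩
    refine h1.trans ?_
    congr 1


/-- **(LINV-FIN)** A class of `H²(Gal(K/k), Kˣ)` has trivial local invariant at all but finitely
many finite places of `k`. -/
theorem linv_finite [NumberField k] [Normal k K]
    (α : groupCohomology (Rep.ofAlgebraAutOnUnits k K) 2) :
    {v : H88.FinPlace k | (H88.layerOf k K).linv v α ≠ 0}.Finite := by
  haveI : FiniteDimensional k K := Module.Finite.of_restrictScalars_finite ℚ k K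
  obtain ⟨T, hT, β, rfl⟩ := exists_unitsOutside_class k K α
  have hbad : {q : Nat.Primes | ¬ H88.IsUnramifiedAt (q : ℕ) k K}.Finite :=
    almostAllUnramifiedStatement k K
  have hfin : {v : H88.FinPlace k |
      v.1 ∈ T ∪ {q : Nat.Primes | ¬ H88.IsUnramifiedAt (q : ℕ) k K}}.Finite := by
    haveI : ∀ q : Nat.Primes, Finite (H88.PlaceAbove (q : ℕ) k) := fun q => Quotient.finite _
    exact Set.Finite.subset
      ((hT.union hbad).biUnion fun q _ => Set.finite_range (Sigma.mk q : _ → H88.FinPlace k))
      (fun v hv => Set.mem_biUnion hv ⟨v.2, rfl⟩)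
  refine hfin.subset ?_
  intro v hv
  by_contra hnot
  apply hv
  have hvT : v.1 ∉ T := fun h => hnot (Or.inl h)
  have hunr : H88.IsUnramifiedAt (v.1 : ℕ) k K := by
    by_contra h
    exact hnot (Or.inr h)
  have hu : ∀ a : unitsOutsideRep k K T,
      ‖H88.FinPlace.ext K v ((Additive.toMul
        (Rep.toAdditive ((unitsOutsideIncl k K T).hom a)) : Kˣ) : K)‖ = 1 :=
    fun a => (show ↥(unitsOutsideSub k K T) from a).2 v.1 hvT (H88.FinPlace.ext K v)
  exact linvAt_eq_zero_of_units (v.1 : ℕ) k K (H88.FinPlace.ext K v) hunr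
    (unitsOutsideRep k K T) (unitsOutsideIncl k K T) hu β

end Finite

end Fermat.Agent.S55.H28
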