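/-
Program C (S55), package C8 (designer helper29): the leaf (LINV-FIN) in the exact shape
`H29.LinvFinStatement` of `H29/C8Ex.lean` (helper28; adapter for `H28.linv_finite`).
-/
import Fermat.Agent.S55.H28.LinvFin
import Fermat.Agent.S55.H29.C8Ex

set_option autoImplicit false

namespace Fermat.Agent.S55.H28

/-- **C8 leaf (LINV-FIN)**: a class of `H²(Gal(K/k), Kˣ)` has only finitely many nonzero local
invariants. -/
theorem linvFinStatement : H29.LinvFinStatement := by
  intro k K _ _ _ _ _ _ α
  exact linv_finite k K α

end Fermat.Agent.S55.H28
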